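import Mathlib

/-!
# Nagata's change of variables

The substitution `X i ↦ X i + X 0 ^ (N ^ i)` makes a nonzero polynomial over a field monic in `X 0`
up to a constant. The proof follows Mathlib's `RingTheory/NoetherNormalization` (Riccardo Brasca,
Sihan Su, Wan Lin, Xiaoyang Su; Apache 2.0), where the lemmas are private.
-/

set_option autoImplicit false

noncomputable section

open Polynomial MvPolynomial

namespace Fermat.Agent.QuillenSuslin

variable {K : Type*} [Field K] {n : ℕ}

/-- `X i ↦ X i + c X 0 ^ (N ^ i)` for `i ≠ 0`. -/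
def nagataHom (N : ℕ) (c : K) :
    MvPolynomial (Fin (n + 1)) K →ₐ[K] MvPolynomial (Fin (n + 1)) K :=
  MvPolynomial.aeval fun i => if i = 0 then MvPolynomial.X 0
    else MvPolynomial.X i + c • MvPolynomial.X 0 ^ N ^ i.1

theorem nagataHom_comp (N : ℕ) (c : K) :
    (nagataHom (n := n) N c).comp (nagataHom N (-c)) = AlgHom.id _ _ := by
  rw [nagataHom, nagataHom, MvPolynomial.comp_aeval, ← MvPolynomial.aeval_X_left]
  ext i v
  cases i using Fin.cases <;> simp

/-- The automorphism. -/
def nagataEquiv (N : ℕ) : MvPolynomial (Fin (n + 1)) K ≃ₐ[K] MvPolynomial (Fin (n + 1)) K :=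
  AlgEquiv.ofAlgHom (nagataHom N 1) (nagataHom N (-1)) (nagataHom_comp N 1)
    (by simpa using nagataHom_comp (n := n) N (-1 : K))

/-- A monomial goes to a polynomial with leading coefficient its coefficient, of degree the
digits read in base `N`. -/
theorem finSuccEquiv_nagata_monomial {N : ℕ} (hN : 0 < N) (v : Fin (n + 1) →₀ ℕ) {a : K}
    (ha : a ≠ 0) :
    (finSuccEquiv K n (nagataEquiv N (MvPolynomial.monomial v a))).leadingCoeff =
        MvPolynomial.C a ∧
      (finSuccEquiv K n (nagataEquiv N (MvPolynomial.monomial v a))).natDegree =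
        ∑ i : Fin (n + 1), N ^ i.1 * v i := by
  set F : Fin n → (MvPolynomial (Fin n) K)[X] := fun i =>
    Polynomial.X ^ N ^ (i.succ : ℕ) + Polynomial.C (MvPolynomial.X i)
  have hF : ∀ i, (F i).Monic := fun i => monic_X_pow_add_C _ (pow_pos hN _).ne'
  have h1 : finSuccEquiv K n (nagataEquiv N (MvPolynomial.monomial v a)) =
      Polynomial.C (MvPolynomial.C a) * (Polynomial.X ^ v 0 * ∏ i, F i ^ v i.succ) := by
    rw [MvPolynomial.monomial_eq, Finsupp.prod_pow v fun a => MvPolynomial.X a]
    simp only [nagataEquiv, AlgEquiv.ofAlgHom_apply, nagataHom, Fin.prod_univ_succ, map_mul,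
      map_prod, map_pow, MvPolynomial.aeval_C, MvPolynomial.aeval_X, if_pos, Fin.succ_ne_zero,
      ite_false, one_smul, map_add, finSuccEquiv_X_zero, finSuccEquiv_X_succ,
      MvPolynomial.algebraMap_eq]
    rw [finSuccEquiv_apply, MvPolynomial.eval₂Hom_C]
    simp only [RingHom.comp_apply, F, add_comm (Polynomial.C _)]
  have hm : (Polynomial.X ^ v 0 * ∏ i, F i ^ v i.succ).Monic :=
    (monic_X_pow _).mul (monic_prod_of_monic _ _ fun i _ => (hF i).pow _)
  rw [h1, natDegree_C_mul (by simpa using ha), leadingCoeff_mul, leadingCoeff_C, hm.leadingCoeff,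
    mul_one, (monic_X_pow _).natDegree_mul (monic_prod_of_monic _ _ fun i _ => (hF i).pow _),
    natDegree_X_pow, natDegree_prod_of_monic _ _ fun i _ => (hF i).pow _, Fin.sum_univ_succ]
  refine ⟨rfl, ?_⟩
  simp only [(hF _).natDegree_pow, Fin.val_zero, pow_zero, one_mul]
  refine congrArg _ (Finset.sum_congr rfl fun i _ => ?_)
  rw [natDegree_X_pow_add_C, mul_comm]

/-- **Nagata**: an automorphism makes a nonzero polynomial monic in `X 0` up to a unit. -/
theorem exists_monic_coordinate {g : MvPolynomial (Fin (n + 1)) K} (hg : g ≠ 0) :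
    ∃ φ : MvPolynomial (Fin (n + 1)) K ≃+* (MvPolynomial (Fin n) K)[X],
      IsUnit (φ g).leadingCoeff := by
  set N := 2 + g.totalDegree
  refine ⟨((nagataEquiv N).trans (finSuccEquiv K n)).toRingEquiv, ?_⟩
  show IsUnit (finSuccEquiv K n (nagataEquiv N g)).leadingCoeff
  set h := fun v => finSuccEquiv K n (nagataEquiv N (MvPolynomial.monomial v (coeff v g)))
  have hh : ∀ v ∈ g.support, (h v).natDegree = ∑ i : Fin (n + 1), N ^ i.1 * v i := fun v hv =>
    (finSuccEquiv_nagata_monomial (by omega) v (MvPolynomial.mem_support_iff.1 hv)).2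
  obtain ⟨v, hv, hmax⟩ := g.support.exists_max_image (fun v => (h v).natDegree)
    (MvPolynomial.support_nonempty.2 hg)
  have hlc := (finSuccEquiv_nagata_monomial (N := N) (by omega) v
    (MvPolynomial.mem_support_iff.1 hv)).1
  have hv0 : h v ≠ 0 := fun e => by
    rw [show finSuccEquiv K n (nagataEquiv N (MvPolynomial.monomial v (coeff v g))) = 0 from e,
      Polynomial.leadingCoeff_zero, ← map_zero MvPolynomial.C] at hlc
    exact MvPolynomial.mem_support_iff.1 hv (MvPolynomial.C_injective _ _ hlc).symm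
  have hlt : ∀ w ∈ g.support.erase v, (h w).degree < (h v).degree := fun w hw => by
    obtain ⟨hne, hw⟩ := Finset.mem_erase.1 hw
    refine degree_lt_degree (lt_of_le_of_ne (hmax w hw) fun e => hne ?_)
    rw [hh w hw, hh v hv] at e
    have hbd : ∀ u ∈ g.support, ∀ i, u i < N := fun u hu i => by
      have := (MvPolynomial.monomial_le_degreeOf i hu).trans
        (MvPolynomial.degreeOf_le_totalDegree g i)
      omega
    refine Finsupp.ext (congrFun (List.ofFn_inj.mp ?_))
    refine Nat.ofDigits_inj_of_len_eq (show 1 < N by omega) (by simp)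
      (fun l hl => ?_) (fun l hl => ?_) ?_
    · obtain ⟨i, rfl⟩ := List.mem_ofFn.1 hl
      exact hbd w hw i
    · obtain ⟨i, rfl⟩ := List.mem_ofFn.1 hl
      exact hbd v hv i
    · simpa only [Nat.ofDigits_eq_sum_mapIdx, List.mapIdx_eq_ofFn, List.get_ofFn, List.length_ofFn,
        Fin.val_cast, mul_comm, List.sum_ofFn] using! e
  have e : finSuccEquiv K n (nagataEquiv N g) = h v + ∑ w ∈ g.support.erase v, h w := by
    conv_lhs => rw [← g.support_sum_monomial_coeff]
    rw [map_sum, map_sum, ← Finset.add_sum_erase _ _ hv]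
  rw [e, add_comm, leadingCoeff_add_of_degree_lt
    ((degree_sum_le _ _).trans_lt ((Finset.sup_lt_iff (bot_lt_iff_ne_bot.2
      fun e => hv0 (degree_eq_bot.1 e))).2 hlt))]
  rw [show (h v).leadingCoeff = MvPolynomial.C (coeff v g) from hlc]
  exact (MvPolynomial.mem_support_iff.1 hv).isUnit.map MvPolynomial.C

end Fermat.Agent.QuillenSuslin
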