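import Fermat.Agent.QuillenSuslin.Patching
import Fermat.Agent.QuillenSuslin.Nagata

/-!
# Unimodular rows over polynomial rings

Over a field every unimodular row in polynomials completes to an invertible matrix.
-/

set_option autoImplicit false

noncomputable section

open Matrix

namespace Fermat.Agent.QuillenSuslin

/-- Every unimodular row over `R` is a unit row. -/
def RowsTrivial (R : Type*) [CommRing R] : Prop :=
  ∀ (m : ℕ) (v : Fin m → R), IsUnimodularRow v → ∃ i, RowEquiv v (Pi.single i 1)

variable {R S : Type*} [CommRing R] [CommRing S]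

theorem comp_single {m : ℕ} (f : R →+* S) (i : Fin m) :
    f ∘ (Pi.single i 1 : Fin m → R) = Pi.single i 1 := funext fun k => by
  rw [Function.comp_apply, Pi.single_apply, Pi.single_apply]
  split_ifs <;> simp

theorem rowsTrivial_field (K : Type*) [Field K] : RowsTrivial K := fun _ v hv => by
  obtain ⟨u, hu⟩ := hv
  obtain ⟨i, -, hi⟩ := Finset.exists_ne_zero_of_sum_ne_zero
    (show ∑ i, u i * v i ≠ 0 by rw [show ∑ i, u i * v i = 1 from hu]; exact one_ne_zero)
  exact ⟨i, RowEquiv.of_isUnit_entry v i (mul_ne_zero_iff.1 hi).2.isUnit⟩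

theorem RowsTrivial.of_equiv (h : RowsTrivial R) (e : R ≃+* S) : RowsTrivial S := fun _ v hv => by
  obtain ⟨i, hi⟩ := h _ _ (hv.map e.symm.toRingHom)
  refine ⟨i, ?_⟩
  have := hi.map e.toRingHom
  rw [comp_single] at this
  convert this using 1
  funext k
  simp

theorem rowsTrivial_succ (K : Type*) [Field K] (n : ℕ)
    (ih : RowsTrivial (MvPolynomial (Fin n) K)) :
    RowsTrivial (MvPolynomial (Fin (n + 1)) K) := fun m v hv => by
  obtain ⟨i, hi⟩ : ∃ i, v i ≠ 0 := by
    by_contra! h
    obtain ⟨u, hu⟩ := hv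
    simp [dotProduct, h] at hu
  obtain ⟨φ, u, hu⟩ := exists_monic_coordinate hi
  set w : Fin m → Polynomial (MvPolynomial (Fin n) K) := φ ∘ v with hw
  set w' := Function.update w i (Polynomial.C ((u⁻¹ : (MvPolynomial (Fin n) K)ˣ) :
    MvPolynomial (Fin n) K) * w i)
  have hww : RowEquiv w w' := RowEquiv.scale w i (Units.map Polynomial.C.toMonoidHom u⁻¹)
  have hmon : (w' i).Monic := by
    rw [show w' i = _ from Function.update_self i _ w]
    exact Polynomial.monic_C_mul_of_mul_leadingCoeff_eq_one (by
      rw [show (w i).leadingCoeff = (u : MvPolynomial (Fin n) K) from hu.symm, Units.inv_mul])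
  have hu' : IsUnimodularRow w' := hww.isUnimodularRow (hv.map φ.toRingHom)
  clear_value w'
  have h0 := hu'.map (Polynomial.evalRingHom (0 : MvPolynomial (Fin n) K))
  obtain ⟨j, hj⟩ := ih m _ h0
  have h1 := hj.map (Polynomial.C : MvPolynomial (Fin n) K →+* _)
  rw [comp_single] at h1
  have h3 := rowEquiv_eval_zero w' hu' i hmon
  rw [← Polynomial.coe_evalRingHom] at h3
  have h2 := (hww.trans (h3.trans h1)).map φ.symm.toRingHom
  rw [comp_single] at h2
  refine ⟨j, ?_⟩
  convert h2 using 1
  funext k
  simp [hw]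

theorem rowsTrivial_mvPolynomial (K : Type*) [Field K] :
    ∀ n, RowsTrivial (MvPolynomial (Fin n) K) := fun n => by
  induction n with
  | zero => exact (rowsTrivial_field K).of_equiv (MvPolynomial.isEmptyRingEquiv K (Fin 0)).symm
  | succ n ih => exact rowsTrivial_succ K n ih

/-- **Quillen and Suslin, for rows**: a unimodular row is the first row of an invertible matrix. -/
theorem exists_completion (h : RowsTrivial R) {m : ℕ} (v : Fin (m + 1) → R)
    (hv : IsUnimodularRow v) :
    ∃ M : Matrix (Fin (m + 1)) (Fin (m + 1)) R, IsUnit M.det ∧ M 0 = v := by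
  obtain ⟨i, hi⟩ := h _ v hv
  obtain ⟨T, hT, hTv⟩ := (hi.trans (RowEquiv.single_single i 0)).symm
  refine ⟨Tᵀ, by rwa [det_transpose], ?_⟩
  rw [← hTv]
  funext k
  simp [transpose_apply]

end Fermat.Agent.QuillenSuslin
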