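import Fermat.Agent.QuillenSuslin.Rows

/-!
# Horrocks's theorem for rows

Over a local ring `A`, a unimodular row over `A[X]` with a monic entry is equivalent to a unit row
(Suslin's proof).
-/

set_option autoImplicit false

noncomputable section

open Polynomial

namespace Fermat.Agent.QuillenSuslin

variable {A : Type*} [CommRing A]

/-- In the ideal of a monic `a` of degree `d` and a `b` of lower degree, the coefficients of `b`
occur at degree `d - 1`. -/
theorem exists_leading_of_coeff {a : A[X]} (ha : a.Monic) {J : Ideal A[X]} (haJ : a ∈ J) {d : ℕ}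
    (hd : a.natDegree = d + 1) : ∀ (t s : ℕ) (h : A[X]), s + t = d → h ∈ J → h.natDegree ≤ d →
      ∃ q ∈ J, q.natDegree ≤ d ∧ q.coeff d = h.coeff s := by
  intro t
  induction t with
  | zero => intro s h hs hJ hh; exact ⟨h, hJ, hh, by rw [← hs, add_zero]⟩
  | succ t ih =>
    intro s h hs hJ hh
    set h' := X * h - C (h.coeff d) * a with hh'
    have hJ' : h' ∈ J := J.sub_mem (J.mul_mem_left _ hJ) (J.mul_mem_left _ haJ)
    have hdeg : h'.natDegree ≤ d := natDegree_le_iff_coeff_eq_zero.2 fun m hm => by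
      obtain ⟨m, rfl⟩ : ∃ k, m = k + 1 := ⟨m - 1, by omega⟩
      rw [hh', coeff_sub, coeff_X_mul, coeff_C_mul]
      rcases eq_or_lt_of_le (Nat.lt_succ_iff.1 hm) with rfl | hm'
      · rw [← hd, ha.coeff_natDegree, mul_one, sub_self]
      · rw [coeff_eq_zero_of_natDegree_lt (hh.trans_lt hm'),
          coeff_eq_zero_of_natDegree_lt (p := a) (by omega), mul_zero, sub_zero]
    obtain ⟨q, hq, hqd, e⟩ := ih (s + 1) h' (by omega) hJ' hdeg
    obtain ⟨r, hr, hrd, e'⟩ := ih (s + 1) h (by omega) hJ hh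
    -- multiples of the degree `d` coefficient of `h`
    refine ⟨q + C (a.coeff (s + 1)) * h, J.add_mem hq (J.mul_mem_left _ hJ),
      natDegree_add_le_of_degree_le hqd ((natDegree_C_mul_le _ _).trans hh), ?_⟩
    rw [coeff_add, e, hh', coeff_sub, coeff_X_mul, coeff_C_mul, coeff_C_mul]
    ring

/-- A monic of degree `d` below a monic of degree `d + 1`, once some lower entry has a unit
coefficient. -/
theorem exists_monic_below {a b : A[X]} (ha : a.Monic) {d : ℕ} (hd : a.natDegree = d + 1)
    (hb : b.natDegree ≤ d) {s : ℕ} (hs : IsUnit (b.coeff s)) [Nontrivial A] :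
    ∃ α β : A[X], (α * a + β * b).natDegree ≤ d ∧ (α * a + β * b).coeff d = 1 := by
  have hsd : s ≤ d := (le_natDegree_of_ne_zero hs.ne_zero).trans hb
  obtain ⟨q, hq, hqd, e⟩ := exists_leading_of_coeff ha
    (Ideal.mem_span_pair.2 ⟨1, 0, by ring⟩ : a ∈ Ideal.span {a, b}) hd (d - s) s b (by omega)
    (Ideal.mem_span_pair.2 ⟨0, 1, by ring⟩) hb
  obtain ⟨α, β, hαβ⟩ := Ideal.mem_span_pair.1 hq
  obtain ⟨u, hu⟩ := hs
  refine ⟨C ((u⁻¹ : Aˣ) : A) * α, C ((u⁻¹ : Aˣ) : A) * β, ?_⟩
  have e' : C ((u⁻¹ : Aˣ) : A) * α * a + C ((u⁻¹ : Aˣ) : A) * β * b = C ((u⁻¹ : Aˣ) : A) * q := by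
    rw [← hαβ]; ring
  rw [e']
  exact ⟨(natDegree_C_mul_le _ _).trans hqd, by rw [coeff_C_mul, e, ← hu, Units.inv_mul]⟩

/-- **Horrocks**: over a local ring a unimodular row with a monic entry is a unit row. -/
theorem rowEquiv_single_of_monic [IsLocalRing A] {n : ℕ} (v : Fin n → A[X])
    (hv : IsUnimodularRow v) (i : Fin n) (hi : (v i).Monic) :
    RowEquiv v (Pi.single i 1) := by
  induction hm : (v i).natDegree using Nat.strong_induction_on generalizing v i with
  | _ m ih =>
  rcases m.eq_zero_or_pos with rfl | hm0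
  · exact RowEquiv.of_isUnit_entry v i (by
      rw [eq_one_of_monic_natDegree_zero hi hm]; exact isUnit_one)
  obtain ⟨d, rfl⟩ : ∃ d, m = d + 1 := ⟨m - 1, by omega⟩
  -- reduce the other entries modulo the monic one
  have hred := RowEquiv.add_multiples v i (fun k => if k = i then 0 else -(v k /ₘ v i)) (if_pos rfl)
  set v' := v + v i • fun k => if k = i then 0 else -(v k /ₘ v i) with hv'
  have hvi : v' i = v i := by simp [hv']
  have hvk : ∀ k, k ≠ i → (v' k).natDegree ≤ d := fun k hk => by
    have e : v' k = v k %ₘ v i := by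
      simp only [hv', Pi.add_apply, Pi.smul_apply, smul_eq_mul, if_neg hk, mul_neg]
      linear_combination -(modByMonic_add_div (v k) (v i))
    have := natDegree_modByMonic_lt (v k) hi (fun h => by rw [h, natDegree_one] at hm; omega)
    rw [e]
    omega
  refine hred.trans ?_
  have hv'u := hred.isUnimodularRow hv
  clear_value v'
  rw [← hvi] at hi hm
  -- some other entry has a unit coefficient
  obtain ⟨k, hk, s, hs⟩ : ∃ k, k ≠ i ∧ ∃ s, IsUnit ((v' k).coeff s) := by
    by_contra! hcon
    obtain ⟨u, hu⟩ := hv'u.map (mapRingHom (IsLocalRing.residue A))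
    rw [dotProduct, Finset.sum_eq_single i (fun k _ hk => ?_) (by simp)] at hu
    · have h1 := natDegree_eq_zero_of_isUnit (IsUnit.of_mul_eq_one_right _ hu)
      rw [Function.comp_apply, coe_mapRingHom, hi.natDegree_map, hm] at h1
      omega
    · refine mul_eq_zero_of_right _ (Polynomial.ext fun s => ?_)
      rw [Function.comp_apply, coe_mapRingHom, coeff_map, coeff_zero,
        IsLocalRing.residue_eq_zero_iff]
      exact hcon k hk s
  -- a third entry
  match n, v', i, k, hk, hs, hi, hm, hv'u, hvk with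
  | 0, _, i, _, _, _, _, _, _, _ => exact i.elim0
  | 1, _, i, k, hk, _, _, _, _, _ => exact absurd (Subsingleton.elim k i) hk
  | 2, v', i, _, _, _, _, _, hv'u, _ =>
    exact (RowEquiv.of_two v' hv'u).trans (RowEquiv.single_single 0 i)
  | n + 3, v', i, k, hk, hs, hi, hm, hv'u, hvk =>
    obtain ⟨l, -, hl⟩ := Finset.exists_mem_notMem_of_card_lt_card
      (t := (Finset.univ : Finset (Fin (n + 3))))
      (s := ({i, k} : Finset (Fin (n + 3)))) (by
        rw [Finset.card_pair hk.symm]; simp)
    simp only [Finset.mem_insert, Finset.mem_singleton, not_or] at hl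
    obtain ⟨α, β, hqd, hq⟩ := exists_monic_below hi hm (hvk k hk) hs
    set γ := C (1 - (v' l).coeff d) with hγ
    have h1 := RowEquiv.add_multiples v' i (Pi.single l (γ * α))
      (Pi.single_eq_of_ne (Ne.symm hl.1) _)
    set v₁ := v' + v' i • Pi.single l (γ * α) with hv₁
    have h2 := RowEquiv.add_multiples v₁ k (Pi.single l (γ * β))
      (Pi.single_eq_of_ne (Ne.symm hl.2) _)
    set v₂ := v₁ + v₁ k • Pi.single l (γ * β) with hv₂
    have hv₂l : v₂ l = v' l + γ * (α * v' i + β * v' k) := by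
      simp [hv₂, hv₁, (Ne.symm hl.2)]; ring
    have hdeg : (v₂ l).natDegree ≤ d := hv₂l ▸
      natDegree_add_le_of_degree_le (hvk l hl.1) ((natDegree_C_mul_le _ _).trans hqd)
    have hcoeff : (v₂ l).coeff d = 1 := by
      rw [hv₂l, coeff_add, hγ, coeff_C_mul, hq]; ring
    exact (h1.trans h2).trans ((ih _ (Nat.lt_succ_of_le hdeg) v₂
      ((h1.trans h2).isUnimodularRow hv'u) l (monic_of_natDegree_le_of_coeff_eq_one d hdeg hcoeff)
      rfl).trans (RowEquiv.single_single l i))

end Fermat.Agent.QuillenSuslin
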