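import Fermat.Agent.QuillenSuslin.Resolution

/-!
# Resolutions over polynomial rings

If all finitely generated modules over a Noetherian ring `A` have finite free resolutions, so do
those over `A[X]` (Serre); hence the same over polynomial rings over a field (Hilbert).
-/

set_option autoImplicit false

noncomputable section

universe u

open Polynomial TensorProduct

namespace Fermat.Agent.QuillenSuslin

/-- All finitely generated modules have finite free resolutions. -/
def AllResolvable (R : Type u) [CommRing R] : Prop :=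
  ∀ (M : Type u) [AddCommGroup M] [Module R M], Module.Finite R M → HasFiniteFreeResolution R M

variable {A : Type u} [CommRing A]

theorem ResolvesIn.baseChange {S : Type u} [CommRing S] [Algebra A S] [Module.Flat A S] :
    ∀ {n : ℕ} {M : Type u} [AddCommGroup M] [Module A M],
      ResolvesIn A n M → ResolvesIn S n (S ⊗[A] M)
  | 0, _, _, _, ⟨k, ⟨e⟩⟩ =>
    ⟨k, ⟨(e.baseChange A S _ _).trans (TensorProduct.piScalarRight A S S (Fin k))⟩⟩
  | n + 1, M, _, _, ⟨k, f, hf, h⟩ => by
    refine ResolvesIn.of_surjective (TensorProduct.piScalarRight A S S (Fin k)) (f.baseChange S)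
      (by rw [LinearMap.baseChange_eq_ltensor]; exact LinearMap.lTensor_surjective S hf) ?_
    refine h.baseChange.of_equiv ((LinearEquiv.ofInjective ((LinearMap.ker f).subtype.baseChange S)
      ?_).trans (LinearEquiv.ofEq _ _ ?_))
    · rw [LinearMap.baseChange_eq_ltensor]
      exact Module.Flat.lTensor_preserves_injective_linearMap _ (Submodule.injective_subtype _)
    · refine (LinearMap.exact_iff.1 ?_).symm
      rw [LinearMap.baseChange_eq_ltensor, LinearMap.baseChange_eq_ltensor]
      exact lTensor_exact S (LinearMap.exact_subtype_ker_map f) hf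

/-- Division by `f` modulo the polynomials over `p`, up to powers of the leading coefficient. -/
theorem exists_pow_mul_mem {p : Ideal A} {P : Ideal A[X]} {f : A[X]}
    (hfP : f ∈ P) (hmin : ∀ g ∈ P, g.natDegree < f.natDegree → g ∈ p.map C) (g : A[X])
    (hg : g ∈ P) : ∃ k, C (f.leadingCoeff) ^ k * g ∈ Ideal.span {f} ⊔ p.map C := by
  induction hd : g.natDegree using Nat.strong_induction_on generalizing g with
  | _ d ih =>
  rcases lt_or_ge d f.natDegree with h | h
  · exact ⟨0, by simpa using Ideal.mem_sup_right (hmin g hg (hd ▸ h))⟩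
  rcases Nat.eq_zero_or_pos d with rfl | hd0
  · -- both constant
    refine ⟨1, Ideal.mem_sup_left ?_⟩
    rw [pow_one, eq_C_of_natDegree_eq_zero hd, leadingCoeff]
    have hf0 : f.natDegree = 0 := by omega
    rw [hf0, ← eq_C_of_natDegree_eq_zero hf0]
    exact Ideal.mem_span_singleton'.2 ⟨_, mul_comm _ _⟩
  set g' := C f.leadingCoeff * g - C g.leadingCoeff * X ^ (d - f.natDegree) * f with hg'
  have hlt : g'.natDegree < d := by
    suffices h1 : g'.natDegree ≤ d - 1 by omega
    refine natDegree_le_iff_coeff_eq_zero.2 fun m hm => ?_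
    rw [hg', coeff_sub, coeff_C_mul, mul_assoc, coeff_C_mul, coeff_X_pow_mul']
    rw [if_pos (by omega)]
    rcases eq_or_lt_of_le (show d ≤ m by omega) with rfl | hm'
    · rw [Nat.sub_sub_self h, coeff_natDegree, ← hd, coeff_natDegree, mul_comm, sub_self]
    · rw [coeff_eq_zero_of_natDegree_lt (p := g) (by omega),
        coeff_eq_zero_of_natDegree_lt (p := f) (by omega), mul_zero, mul_zero, sub_zero]
  obtain ⟨k, hk⟩ := ih _ hlt g' (P.sub_mem (P.mul_mem_left _ hg) (P.mul_mem_left _ hfP)) rfl
  refine ⟨k + 1, ?_⟩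
  have e : C f.leadingCoeff ^ (k + 1) * g =
      C f.leadingCoeff ^ k * g' +
        C f.leadingCoeff ^ k * (C g.leadingCoeff * X ^ (d - f.natDegree)) * f := by
    rw [hg']; ring
  rw [e]
  exact add_mem hk (Ideal.mem_sup_left (Ideal.mem_span_singleton'.2 ⟨_, rfl⟩))

/-- The quotients by the primes over a given prime of `A`. -/
theorem hasFiniteFreeResolution_quotient_prime [IsNoetherianRing A] (hA : AllResolvable A)
    (p : Ideal A) : ∀ P : Ideal A[X], P.IsPrime → P.comap C = p →
      HasFiniteFreeResolution A[X] (A[X] ⧸ P) := by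
  induction p using WellFoundedGT.induction with
  | _ p ih =>
  intro P hP hPp
  have hp : p.IsPrime := hPp ▸ Ideal.IsPrime.comap C
  have hJP : p.map C ≤ P := Ideal.map_le_iff_le_comap.2 hPp.ge
  have : Module.Flat A A[X] := inferInstance
  have hSJ : HasFiniteFreeResolution A[X] (A[X] ⧸ p.map C) := by
    obtain ⟨n, hn⟩ := hA (A ⧸ p) inferInstance
    exact ⟨n, (hn.baseChange (S := A[X])).of_equiv (Ideal.qoutMapEquivTensorQout A[X]).symm⟩
  set J : Ideal A[X] := p.map C with hJ
  have hJprime : J.IsPrime := Ideal.isPrime_map_C_of_isPrime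
  by_cases hPJ : P ≤ J
  · rwa [le_antisymm hPJ hJP]
  -- an `f` of least degree outside `J`
  classical
  have hex : ∃ d, ∃ g ∈ P, g ∉ J ∧ g.natDegree = d := by
    obtain ⟨g, hg, hgJ⟩ := SetLike.not_le_iff_exists.1 hPJ
    exact ⟨_, g, hg, hgJ, rfl⟩
  obtain ⟨f, hfP, hfJ, hfd⟩ := Nat.find_spec hex
  have hmin : ∀ g ∈ P, g.natDegree < f.natDegree → g ∈ J := fun g hg hlt => by
    by_contra hgJ
    exact Nat.find_min hex (hfd ▸ hlt) ⟨g, hg, hgJ, rfl⟩
  set a := f.leadingCoeff with ha
  have hap : a ∉ p := fun hap => by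
    have hCa : C a * X ^ f.natDegree ∈ J := J.mul_mem_right _ (Ideal.mem_map_of_mem C hap)
    have hel : f.eraseLead ∈ P := by
      rw [eq_sub_of_add_eq f.eraseLead_add_C_mul_X_pow]
      exact P.sub_mem hfP (hJP hCa)
    have : f.eraseLead ∈ J := by
      rcases f.eraseLead_natDegree_lt_or_eraseLead_eq_zero with h | h
      · exact hmin _ hel h
      · rw [h]; exact J.zero_mem
    exact hfJ (f.eraseLead_add_C_mul_X_pow ▸ J.add_mem this hCa)
  set N : Submodule A[X] (A[X] ⧸ J) := Submodule.map (Submodule.mkQ J) P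
  have hfN : Submodule.Quotient.mk f ∈ N := Submodule.mem_map_of_mem hfP
  set N₀ : Submodule A[X] N := Submodule.span A[X] {⟨_, hfN⟩}
  -- `(f) ≅ A[X] / J`
  have hN₀ : HasFiniteFreeResolution A[X] N₀ := by
    set φ : A[X] →ₗ[A[X]] N := LinearMap.toSpanSingleton A[X] N ⟨_, hfN⟩
    have hker : LinearMap.ker φ = J := by
      ext g
      rw [LinearMap.mem_ker, ← Submodule.coe_eq_zero]
      show g • (Submodule.Quotient.mk f : A[X] ⧸ J) = 0 ↔ g ∈ J
      rw [← Submodule.Quotient.mk_smul, Submodule.Quotient.mk_eq_zero, smul_eq_mul]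
      exact ⟨fun h => (hJprime.mem_or_mem h).resolve_right hfJ, fun h => J.mul_mem_right _ h⟩
    obtain ⟨n, hn⟩ := hSJ
    exact ⟨n, hn.of_equiv ((Submodule.quotEquivOfEq _ _ hker.symm).trans
      (φ.quotKerEquivRange.trans (LinearEquiv.ofEq _ _ (LinearMap.range_toSpanSingleton _))))⟩
  -- the rest is supported at primes over larger primes of `A`
  have hQ : HasFiniteFreeResolution A[X] (N ⧸ N₀) := by
    have key : ∀ x : N ⧸ N₀, (∀ b ∈ p, C b • x = 0) ∧ ∃ k, C a ^ k • x = 0 := by
      intro x
      obtain ⟨⟨y, hy⟩, rfl⟩ := Submodule.Quotient.mk_surjective N₀ x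
      obtain ⟨g, hg, rfl⟩ := Submodule.mem_map.1 hy
      refine ⟨fun b hb => ?_, ?_⟩
      · rw [← Submodule.Quotient.mk_smul, Submodule.Quotient.mk_eq_zero]
        have e : C b • (⟨_, hy⟩ : N) = 0 := Subtype.ext (by
          show C b • Submodule.mkQ J g = 0
          rw [← map_smul, Submodule.mkQ_apply, Submodule.Quotient.mk_eq_zero, smul_eq_mul]
          exact J.mul_mem_right _ (Ideal.mem_map_of_mem C hb))
        rw [e]
        exact zero_mem _
      · obtain ⟨k, hk⟩ := exists_pow_mul_mem hfP hmin g hg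
        refine ⟨k, ?_⟩
        obtain ⟨s, hs, j, hj, e⟩ := Submodule.mem_sup.1 hk
        obtain ⟨r, rfl⟩ := Ideal.mem_span_singleton'.1 hs
        rw [← Submodule.Quotient.mk_smul, Submodule.Quotient.mk_eq_zero]
        refine Submodule.mem_span_singleton.2 ⟨r, Subtype.ext ?_⟩
        show r • Submodule.mkQ J f = C a ^ k • Submodule.mkQ J g
        rw [← map_smul, ← map_smul, Submodule.mkQ_apply, Submodule.mkQ_apply, Submodule.Quotient.eq,
          smul_eq_mul, smul_eq_mul, ← e, sub_add_cancel_left]
        exact J.neg_mem hj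
    revert key
    refine IsNoetherianRing.induction_on_isQuotientEquivQuotientPrime A[X]
      (inferInstance : Module.Finite A[X] (N ⧸ N₀))
      (motive := fun M _ _ _ => (∀ x : M, (∀ b ∈ p, C b • x = 0) ∧ ∃ k, C a ^ k • x = 0) →
        HasFiniteFreeResolution A[X] M) ?_ ?_ ?_
    · intro M _ _ _ _ _
      exact ⟨0, 0, ⟨LinearEquiv.ofSubsingleton _ _⟩⟩
    · intro M _ _ _ Q e h
      obtain ⟨hb, k, hk⟩ := h (e.symm 1)
      have hmem : ∀ c : A[X], c • e.symm 1 = 0 → c ∈ Q.1 := fun c hc => by
        have := congrArg e hc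
        rwa [map_smul, e.apply_symm_apply, map_zero, Algebra.smul_def, mul_one,
          Ideal.Quotient.algebraMap_eq, Ideal.Quotient.eq_zero_iff_mem] at this
      have hlt : p < Q.1.comap C := lt_of_le_of_ne (fun b hb' => hmem _ (hb b hb')) fun e' =>
        hap (e' ▸ Ideal.mem_comap.2 (Q.2.mem_of_pow_mem k (hmem _ hk)))
      obtain ⟨n, hn⟩ := ih _ hlt Q.1 Q.2 rfl
      exact ⟨n, hn.of_equiv e.symm⟩
    · intro M₁ _ _ _ M₂ _ _ _ M₃ _ _ _ i g hi hg he h₁ h₃ h
      refine HasFiniteFreeResolution.extension i g hi hg he (h₁ fun x => ?_) (h₃ fun x => ?_)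
      · obtain ⟨hb, k, hk⟩ := h (i x)
        exact ⟨fun b hb' => hi (by rw [map_smul, hb b hb', map_zero]),
          k, hi (by rw [map_smul, hk, map_zero])⟩
      · obtain ⟨y, rfl⟩ := hg x
        obtain ⟨hb, k, hk⟩ := h y
        exact ⟨fun b hb' => by rw [← map_smul, hb b hb', map_zero],
          k, by rw [← map_smul, hk, map_zero]⟩
  have hN : HasFiniteFreeResolution A[X] N :=
    HasFiniteFreeResolution.extension N₀.subtype N₀.mkQ (Submodule.injective_subtype _)
      (Submodule.mkQ_surjective _) (LinearMap.exact_subtype_mkQ N₀) hN₀ hQ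
  refine HasFiniteFreeResolution.quotient N.subtype (Submodule.factor hJP)
    (Submodule.injective_subtype _) (Submodule.factor_surjective hJP) ?_ hN hSJ
  rw [LinearMap.exact_iff, Submodule.range_subtype, Submodule.factor, Submodule.ker_mapQ,
    Submodule.comap_id]

/-- **Serre**: the property passes to `A[X]`. -/
theorem AllResolvable.polynomial [IsNoetherianRing A] (hA : AllResolvable A) :
    AllResolvable A[X] := by
  intro M _ _ hM
  refine IsNoetherianRing.induction_on_isQuotientEquivQuotientPrime A[X] hM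
    (motive := fun M _ _ _ => HasFiniteFreeResolution A[X] M) ?_ ?_ ?_
  · intro N _ _ _ _
    exact ⟨0, 0, ⟨LinearEquiv.ofSubsingleton _ _⟩⟩
  · intro N _ _ _ Q e
    obtain ⟨n, hn⟩ := hasFiniteFreeResolution_quotient_prime hA _ Q.1 Q.2 rfl
    exact ⟨n, hn.of_equiv e.symm⟩
  · intro M₁ _ _ _ M₂ _ _ _ M₃ _ _ _ i g hi hg he h₁ h₃
    exact HasFiniteFreeResolution.extension i g hi hg he h₁ h₃

theorem allResolvable_field (K : Type u) [Field K] : AllResolvable K := fun M _ _ _ =>
  ⟨0, _, ⟨(Module.finBasis K M).equivFun⟩⟩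

/-- Resolutions along a semilinear bijection. -/
theorem ResolvesIn.transfer {R S : Type u} [CommRing R] [CommRing S] (e : R ≃+* S) :
    ∀ {n : ℕ} {M N : Type u} [AddCommGroup M] [Module R M] [AddCommGroup N] [Module S N]
      (φ : M ≃+ N), (∀ (r : R) x, φ (r • x) = e r • φ x) → ResolvesIn R n M → ResolvesIn S n N
  | 0, M, N, _, _, _, _, φ, hφ, ⟨k, ⟨a⟩⟩ => by
    let b : N ≃+ (Fin k → S) :=
      φ.symm.trans (a.toAddEquiv.trans (AddEquiv.piCongrRight fun _ => e.toAddEquiv))
    refine ⟨k, ⟨{ b with map_smul' := fun s y => ?_ }⟩⟩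
    have h1 : φ.symm (s • y) = e.symm s • φ.symm y := φ.injective (by simp [hφ])
    funext i
    simp [b, h1]
  | n + 1, M, N, _, _, _, _, φ, hφ, ⟨k, f, hf, h⟩ => by
    let g : (Fin k → S) →ₗ[S] N :=
      { toFun := fun x => φ (f fun i => e.symm (x i))
        map_add' := fun x y => by rw [← map_add, ← map_add]; congr; funext i; simp
        map_smul' := fun s x => by
          rw [RingHom.id_apply, ← e.apply_symm_apply s, ← hφ, ← map_smul]
          congr; funext i; simp }
    refine ⟨k, g, fun y => ?_, h.transfer e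
      { toFun := fun x => (⟨fun i => e (x.1 i), by
          show φ (f fun i => e.symm (e (x.1 i))) = 0
          simp [LinearMap.mem_ker.1 x.2]⟩ : LinearMap.ker g)
        invFun := fun y => ⟨fun i => e.symm (y.1 i), φ.injective (y.2.trans (map_zero φ).symm)⟩
        left_inv := fun x => by ext; simp
        right_inv := fun y => by ext; simp
        map_add' := fun x y => by ext; simp } fun r x => by ext; simp⟩
    obtain ⟨x, hx⟩ := hf (φ.symm y)
    exact ⟨fun i => e (x i), by simp [g, hx]⟩

theorem AllResolvable.of_equiv {R S : Type u} [CommRing R] [CommRing S] (h : AllResolvable R)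
    (e : R ≃+* S) : AllResolvable S := by
  intro M _ _ hM
  let := Module.compHom M e.toRingHom
  have : Module.Finite R M := by
    obtain ⟨s, hs⟩ := hM.fg_top
    refine ⟨⟨s, eq_top_iff.2 fun x _ => ?_⟩⟩
    have hx : x ∈ Submodule.span S (s : Set M) := hs ▸ Submodule.mem_top
    induction hx using Submodule.span_induction with
    | mem y hy => exact Submodule.subset_span hy
    | zero => exact zero_mem _
    | add y z _ _ hy hz => exact add_mem (hy trivial) (hz trivial)
    | smul c y _ hy =>
      rw [← e.apply_symm_apply c]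
      exact Submodule.smul_mem _ (e.symm c) (hy trivial)
  obtain ⟨n, hn⟩ := h M this
  exact ⟨n, hn.transfer e (AddEquiv.refl M) fun r x => rfl⟩

/-- **Hilbert's syzygy theorem**, existence of finite free resolutions. -/
theorem allResolvable_mvPolynomial (K : Type u) [Field K] :
    ∀ n, AllResolvable (MvPolynomial (Fin n) K)
  | 0 => (allResolvable_field K).of_equiv (MvPolynomial.isEmptyRingEquiv K (Fin 0)).symm
  | n + 1 => (allResolvable_mvPolynomial K n).polynomial.of_equiv
      (MvPolynomial.finSuccEquiv K n).toRingEquiv.symm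

end Fermat.Agent.QuillenSuslin
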