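import Fermat.Agent.QuillenSuslin.FieldRows
import Fermat.Agent.QuillenSuslin.Syzygy

/-!
# Projective modules over polynomial rings

Stably free modules are free where unimodular rows complete; hence the theorem of Quillen and
Suslin.
-/

set_option autoImplicit false

noncomputable section

universe u v

open Matrix

namespace Fermat.Agent.QuillenSuslin

variable {R : Type u} [CommRing R]

/-- One free summand cancels. -/
theorem exists_equiv_of_prod_self (hR : RowsTrivial R) {M : Type v} [AddCommGroup M] [Module R M]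
    {k : ℕ} (e : (M × R) ≃ₗ[R] (Fin k → R)) : ∃ l, Nonempty (M ≃ₗ[R] (Fin l → R)) := by
  rcases k with _ | l
  · have : Subsingleton M := ⟨fun a b =>
      (Prod.ext_iff.1 (e.injective (Subsingleton.elim (e (a, 0)) (e (b, 0))))).1⟩
    exact ⟨0, ⟨LinearEquiv.ofSubsingleton _ _⟩⟩
  set φ : (Fin (l + 1) → R) →ₗ[R] R := LinearMap.snd R M R ∘ₗ e.symm.toLinearMap
  set v : Fin (l + 1) → R := fun i => φ (Pi.single i 1)
  have hφ : ∀ x, φ x = x ⬝ᵥ v := fun x => by
    rw [LinearMap.pi_apply_eq_sum_univ φ x]
    simp only [dotProduct, v, smul_eq_mul]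
    refine Finset.sum_congr rfl fun i _ => congrArg _ (congrArg φ ?_)
    ext j
    simp [Pi.single_apply, eq_comm]
  have hv : IsUnimodularRow v := ⟨e (0, 1), by rw [← hφ]; simp [φ]⟩
  obtain ⟨i, hi⟩ := hR _ v hv
  obtain ⟨T, hT, hTv⟩ := hi.trans (RowEquiv.single_single i 0)
  -- the change of basis `y ↦ y T` turns `φ` into the first coordinate
  let B : (Fin (l + 1) → R) ≃ₗ[R] (Fin (l + 1) → R) :=
    { toFun := fun y => y ᵥ* T
      map_add' := fun x y => add_vecMul T x y
      map_smul' := fun c y => smul_vecMul c y T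
      invFun := fun x => x ᵥ* T⁻¹
      left_inv := fun y => by
        show y ᵥ* T ᵥ* T⁻¹ = y
        rw [vecMul_vecMul, T.mul_nonsing_inv hT, vecMul_one]
      right_inv := fun x => by
        show x ᵥ* T⁻¹ ᵥ* T = x
        rw [vecMul_vecMul, T.nonsing_inv_mul hT, vecMul_one] }
  have hB : ∀ y, (e.symm (B y)).2 = y 0 := fun y => by
    show φ (y ᵥ* T) = y 0
    rw [hφ, ← dotProduct_mulVec, hTv, dotProduct_single, mul_one]
  set E := e.trans B.symm
  have hE : ∀ p, E p 0 = p.2 := fun p => by
    have h := (hB (B.symm (e p))).symm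
    rwa [B.apply_symm_apply, e.symm_apply_apply] at h
  refine ⟨l, ⟨{ toFun := fun m => Fin.tail (E (m, 0))
                map_add' := fun a b => by
                  rw [show (a + b, (0 : R)) = (a, 0) + (b, 0) by simp, map_add]; rfl
                map_smul' := fun c a => by
                  rw [show (c • a, (0 : R)) = c • (a, 0) by simp, map_smul]; rfl
                invFun := fun y => (E.symm (Fin.cons 0 y)).1
                left_inv := fun m => ?_
                right_inv := fun y => ?_ }⟩⟩
  · have : (Fin.cons 0 (Fin.tail (E (m, 0))) : Fin (l + 1) → R) = E (m, 0) := by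
      conv_rhs => rw [← Fin.cons_self_tail (E (m, 0)), hE]
    simp only [this, LinearEquiv.symm_apply_apply]
  · have h0 : (E.symm (Fin.cons 0 y)).2 = 0 := by
      rw [← hE, LinearEquiv.apply_symm_apply, Fin.cons_zero]
    show Fin.tail (E ((E.symm (Fin.cons 0 y)).1, 0)) = y
    rw [show ((E.symm (Fin.cons 0 y)).1, (0 : R)) = E.symm (Fin.cons 0 y) from Prod.ext rfl h0.symm,
      LinearEquiv.apply_symm_apply, Fin.tail_cons]

/-- Stably free modules are free. -/
theorem exists_equiv_of_prod (hR : RowsTrivial R) {M : Type v} [AddCommGroup M] [Module R M] :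
    ∀ {m k : ℕ}, ((M × (Fin m → R)) ≃ₗ[R] (Fin k → R)) →
      ∃ l, Nonempty (M ≃ₗ[R] (Fin l → R))
  | 0, k, e => ⟨k, ⟨(LinearEquiv.prodUnique (R := R) (M := M) (M₂ := Fin 0 → R)).symm.trans e⟩⟩
  | m + 1, k, e => by
    obtain ⟨l, ⟨e'⟩⟩ := exists_equiv_of_prod_self hR
      (M := M × (Fin m → R)) (k := k) ((LinearEquiv.prodAssoc R M _ R).trans
        (((LinearEquiv.refl R M).prodCongr ((LinearEquiv.prodComm R _ R).trans
          (Fin.consLinearEquiv R fun _ : Fin (m + 1) => R))).trans e))
    exact exists_equiv_of_prod hR e'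

/-- Finitely generated projectives are free, when rows and resolutions behave. -/
theorem free_of_projective (hR : RowsTrivial R) (hA : AllResolvable R) (P : Type v)
    [AddCommGroup P] [Module R P] [Module.Finite R P] [Module.Projective R P] :
    Module.Free R P := by
  obtain ⟨k, f, hf⟩ := Module.Finite.exists_fin' R P
  set e := f.quotKerEquivOfSurjective hf
  have : Module.Projective R ((Fin k → R) ⧸ LinearMap.ker f) := Module.Projective.of_equiv e.symm
  obtain ⟨n, hn⟩ := hA ((Fin k → R) ⧸ LinearMap.ker f) inferInstance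
  obtain ⟨m, k', ⟨e'⟩⟩ := exists_prod_equiv hn
  obtain ⟨l, ⟨e''⟩⟩ := exists_equiv_of_prod hR
    (((e.symm.prodCongr (LinearEquiv.refl R _))).trans e')
  exact Module.Free.of_equiv e''.symm

/-- **Quillen and Suslin**: finitely generated projective modules over polynomial rings over a
field are free. -/
theorem free_of_projective_mvPolynomial (K : Type u) [Field K] (n : ℕ) (P : Type v)
    [AddCommGroup P] [Module (MvPolynomial (Fin n) K) P]
    [Module.Finite (MvPolynomial (Fin n) K) P] [Module.Projective (MvPolynomial (Fin n) K) P] :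
    Module.Free (MvPolynomial (Fin n) K) P :=
  free_of_projective (rowsTrivial_mvPolynomial K n) (allResolvable_mvPolynomial K n) P

end Fermat.Agent.QuillenSuslin
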