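import Fermat.Agent.QuillenSuslin.Horrocks

/-!
# Patching

Over a domain, a unimodular row `f (X)` with a monic entry is equivalent to `f (0)` (Quillen,
Vaserstein).
-/

set_option autoImplicit false

noncomputable section

open Polynomial Matrix

namespace Fermat.Agent.QuillenSuslin

section

variable {A : Type*} [CommRing A]

/-- `p (X) ↦ p (X + c Y)`. -/
def shiftY (c : A) : A[X] →+* A[X][X] :=
  eval₂RingHom (C.comp C) (C X + C (C c) * X)

/-- `P (Y) ↦ P (c Y)`. -/
def scaleY (c : A) : A[X][X] →+* A[X][X] :=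
  eval₂RingHom C (C (C c) * X)

theorem shiftY_zero : shiftY (0 : A) = C := by
  refine ringHom_ext (fun a => ?_) ?_ <;> simp [shiftY]

theorem scaleY_comp_shiftY (a c : A) : (scaleY a).comp (shiftY c) = shiftY (c * a) := by
  refine ringHom_ext (fun b => ?_) ?_
  · simp [scaleY, shiftY]
  · simp only [scaleY, shiftY, RingHom.comp_apply, coe_eval₂RingHom, eval₂_X, eval₂_add, eval₂_mul,
      eval₂_C, map_mul]
    ring

theorem shiftY_natural {B : Type*} [CommRing B] (g : A →+* B) (c : A) :
    (mapRingHom (mapRingHom g)).comp (shiftY c) = (shiftY (g c)).comp (mapRingHom g) := by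
  refine ringHom_ext (fun b => ?_) ?_ <;> simp [shiftY]

theorem eval_zero_shiftY (c : A) : (evalRingHom 0).comp (shiftY c) = RingHom.id A[X] := by
  refine ringHom_ext (fun b => ?_) ?_ <;> simp [shiftY]

variable {n : ℕ}

/-- The `c` with `f (X + c Y)` equivalent to `f (X)`. -/
def shiftIdeal (f : Fin n → A[X]) : Ideal A where
  carrier := {c | RowEquiv (shiftY c ∘ f) (shiftY 0 ∘ f)}
  zero_mem' := RowEquiv.refl _
  add_mem' := by
    intro c c' h h'
    set ψ : A[X][X] →+* A[X][X] := eval₂RingHom (shiftY c') X with hψ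
    have e : ∀ b, ψ.comp (shiftY b) = shiftY (b + c') := fun b => by
      refine ringHom_ext (fun a => ?_) ?_
      · simp [hψ, shiftY]
      · simp [hψ, shiftY]; ring
    have h1 := h.map ψ
    rw [← Function.comp_assoc, ← RingHom.coe_comp, e, ← Function.comp_assoc, ← RingHom.coe_comp, e,
      zero_add] at h1
    exact h1.trans h'
  smul_mem' := by
    intro a c h
    have h1 := h.map (scaleY a)
    rw [← Function.comp_assoc, ← RingHom.coe_comp, scaleY_comp_shiftY, ← Function.comp_assoc,
      ← RingHom.coe_comp, scaleY_comp_shiftY, zero_mul, mul_comm c] at h1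
    exact h1

/-- From `c = 1`: the row is equivalent to its constant row. -/
theorem rowEquiv_eval_zero_of_one_mem {f : Fin n → A[X]} (h : 1 ∈ shiftIdeal f) :
    RowEquiv f (fun i => C ((f i).eval 0)) := by
  set ξ : A[X][X] →+* A[X] := eval₂RingHom ((C : A →+* A[X]).comp (evalRingHom 0)) X
  have e1 : ξ.comp (shiftY 1) = RingHom.id A[X] := by
    refine ringHom_ext (fun a => ?_) ?_ <;> simp [ξ, shiftY]
  have e0 : ξ.comp (shiftY 0) = (C : A →+* A[X]).comp (evalRingHom 0) := by
    refine ringHom_ext (fun a => ?_) ?_ <;> simp [ξ, shiftY]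
  have := RowEquiv.map ξ (show RowEquiv (shiftY 1 ∘ f) (shiftY 0 ∘ f) from h)
  rw [← Function.comp_assoc, ← RingHom.coe_comp, e1, ← Function.comp_assoc, ← RingHom.coe_comp,
    e0] at this
  exact this

end

variable {A : Type*} [CommRing A] {n : ℕ}

/-- A local trivialisation puts a denominator into the ideal. -/
theorem exists_mem_shiftIdeal {f : Fin n → A[X]} (M : Submonoid A) (hM : M ≤ nonZeroDivisors A)
    {L : Type*} [CommRing L] [IsDomain L] [Algebra A L] [IsLocalization M L] {e : Fin n}
    (h : RowEquiv (mapRingHom (algebraMap A L) ∘ f) (Pi.single e 1)) :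
    ∃ c ∈ M, c ∈ shiftIdeal f := by
  classical
  obtain ⟨T, hT, hTf⟩ := h
  set g : A[X] →+* L[X] := mapRingHom (algebraMap A L)
  set g₂ : A[X][X] →+* L[X][X] := mapRingHom g
  have hinj : Function.Injective g₂ :=
    map_injective _ (map_injective _ (IsLocalization.injective L hM))
  set G : Matrix (Fin n) (Fin n) L[X][X] := T⁻¹.map (shiftY 0) * T.map (shiftY 1) with hG
  have hGf : G *ᵥ (shiftY 1 ∘ g ∘ f) = shiftY 0 ∘ g ∘ f := by
    have e1 : T.map (shiftY 1) *ᵥ (shiftY 1 ∘ g ∘ f) = Pi.single e 1 := funext fun i => by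
      rw [← RingHom.map_mulVec, hTf, Pi.single_apply, Pi.single_apply]
      split_ifs <;> simp
    rw [hG, ← mulVec_mulVec, e1]
    funext i
    rw [show (Pi.single e 1 : Fin n → L[X][X]) = shiftY 0 ∘ Pi.single e 1 from funext fun i => by
      rw [Function.comp_apply, Pi.single_apply, Pi.single_apply]; split_ifs <;> simp,
      ← RingHom.map_mulVec, ← hTf, mulVec_mulVec, nonsing_inv_mul T hT, one_mulVec]
    rfl
  have hdet : G.det = 1 := by
    obtain ⟨a, ha, haT⟩ := Polynomial.isUnit_iff.1 hT
    rw [hG, det_mul, ← RingHom.mapMatrix_apply, ← RingHom.map_det, ← RingHom.mapMatrix_apply,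
      ← RingHom.map_det, show shiftY 1 T.det = shiftY 0 T.det by
        rw [← haT]; simp [shiftY], ← map_mul, ← det_mul, nonsing_inv_mul T hT, det_one, map_one]
  have hG0 : G.map (evalRingHom (0 : L[X])) = 1 := by
    rw [hG, Matrix.map_mul, Matrix.map_map, Matrix.map_map, ← RingHom.coe_comp, ← RingHom.coe_comp,
      eval_zero_shiftY, eval_zero_shiftY]
    simpa using nonsing_inv_mul T hT
  obtain ⟨⟨c, hc⟩, hcs⟩ := IsLocalization.exist_integer_multiples_of_finset M
    (Finset.univ.biUnion fun p : Fin n × Fin n => (G p.1 p.2).coeffs.biUnion Polynomial.coeffs)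
  refine ⟨c, hc, ?_⟩
  set σ : L[X][X] →+* L[X][X] := scaleY (algebraMap A L c)
  have hlift : ∀ i j, σ (G i j) ∈ lifts g := fun i j => by
    refine (lifts_iff_coeff_lifts _).2 fun k => ?_
    have ek : (σ (G i j)).coeff k = (G i j).coeff k * C (algebraMap A L c) ^ k :=
      comp_C_mul_X_coeff
    rw [ek]
    rcases k with _ | k
    · rw [pow_zero, mul_one, coeff_zero_eq_eval_zero]
      have := congr_fun (congr_fun hG0 i) j
      rw [Matrix.map_apply, coe_evalRingHom, one_apply] at this
      rw [this]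
      split_ifs
      exacts [⟨1, map_one g⟩, ⟨0, map_zero g⟩]
    · refine (mem_lifts _).1 ((lifts_iff_coeff_lifts _).2 fun l => ?_)
      rw [pow_succ', ← C_pow, ← C_mul, coeff_mul_C]
      rcases eq_or_ne (((G i j).coeff (k + 1)).coeff l) 0 with h0 | h0
      · exact ⟨0, by rw [h0, zero_mul, map_zero]⟩
      obtain ⟨a, ha⟩ := hcs _ (Finset.mem_biUnion.2 ⟨(i, j), Finset.mem_univ _,
        Finset.mem_biUnion.2 ⟨_, coeff_mem_coeffs fun h => h0 (by rw [h, coeff_zero]),
          coeff_mem_coeffs h0⟩⟩)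
      refine ⟨a * c ^ k, ?_⟩
      rw [map_mul, map_pow, ha]
      show c • ((G i j).coeff (k + 1)).coeff l * _ = _
      rw [Algebra.smul_def]
      ring
  choose G' hG' using fun i j => (mem_lifts _).1 (hlift i j)
  have hmap : (Matrix.of G').map g₂ = G.map σ := Matrix.ext fun i j => hG' i j
  refine ⟨Matrix.of G', ?_, funext fun i => hinj ?_⟩
  · have : g₂ (Matrix.of G').det = g₂ 1 := by
      rw [RingHom.map_det, RingHom.mapMatrix_apply, hmap, ← RingHom.mapMatrix_apply,
        ← RingHom.map_det, hdet, map_one, map_one]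
    rw [hinj this]
    exact isUnit_one
  · have e : ∀ b : A, g₂ ∘ (shiftY b ∘ f) = shiftY (algebraMap A L b) ∘ (g ∘ f) := fun b => by
      rw [← Function.comp_assoc, ← RingHom.coe_comp, shiftY_natural, RingHom.coe_comp,
        Function.comp_assoc]
    have e' : ∀ b : L, σ ∘ (shiftY b ∘ (g ∘ f)) = shiftY (b * algebraMap A L c) ∘ (g ∘ f) :=
      fun b => by rw [← Function.comp_assoc, ← RingHom.coe_comp, scaleY_comp_shiftY]
    have h2 := congrArg σ (congr_fun hGf i)
    rw [RingHom.map_mulVec, e', one_mul, ← e c, ← hmap, ← RingHom.map_mulVec] at h2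
    rw [h2]
    show σ ((shiftY 0 ∘ (g ∘ f)) i) = (g₂ ∘ (shiftY 0 ∘ f)) i
    rw [e 0, map_zero]
    show (σ ∘ (shiftY 0 ∘ (g ∘ f))) i = _
    rw [e', zero_mul]

/-- **Patching**: over a domain a unimodular row with a monic entry is equivalent to its
constant row. -/
theorem rowEquiv_eval_zero [IsDomain A] (f : Fin n → A[X]) (hf : IsUnimodularRow f) (i : Fin n)
    (hi : (f i).Monic) : RowEquiv f (fun k => C ((f k).eval 0)) := by
  refine rowEquiv_eval_zero_of_one_mem ((Ideal.eq_top_iff_one _).1 ?_)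
  by_contra hne
  obtain ⟨m, hm, hle⟩ := Ideal.exists_le_maximal _ hne
  have := hm.isPrime
  obtain ⟨c, hc, hcI⟩ := exists_mem_shiftIdeal m.primeCompl m.primeCompl_le_nonZeroDivisors
    (rowEquiv_single_of_monic (A := Localization.AtPrime m) _
      (hf.map (mapRingHom (algebraMap A (Localization.AtPrime m)))) i
      (hi.map _))
  exact hc (hle hcI)

end Fermat.Agent.QuillenSuslin
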