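import Mathlib

/-!
# Finite free resolutions

Modules with a finite free resolution, their behaviour in short exact sequences, and stably free
projective modules.
-/

set_option autoImplicit false

noncomputable section

universe u v

namespace Fermat.Agent.QuillenSuslin

variable (R : Type u) [CommRing R]

/-- A resolution by finitely generated free modules of length at most `n`. -/
def ResolvesIn : ℕ → ∀ (M : Type u) [AddCommGroup M] [Module R M], Prop
  | 0, M, _, _ => ∃ k, Nonempty (M ≃ₗ[R] (Fin k → R))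
  | n + 1, M, _, _ =>
    ∃ (k : ℕ) (f : (Fin k → R) →ₗ[R] M), Function.Surjective f ∧ ResolvesIn n (LinearMap.ker f)

/-- A finite free resolution exists. -/
def HasFiniteFreeResolution (M : Type u) [AddCommGroup M] [Module R M] : Prop :=
  ∃ n, ResolvesIn R n M

variable {R}

theorem finSum_equiv (p q : ℕ) :
    Nonempty (((Fin p → R) × (Fin q → R)) ≃ₗ[R] (Fin (p + q) → R)) :=
  ⟨(LinearEquiv.sumArrowLequivProdArrow (Fin p) (Fin q) R R).symm.trans
    (LinearEquiv.funCongrLeft R R finSumFinEquiv.symm)⟩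

theorem ResolvesIn.of_equiv : ∀ {n : ℕ} {M N : Type u} [AddCommGroup M] [Module R M]
    [AddCommGroup N] [Module R N] (_ : M ≃ₗ[R] N), ResolvesIn R n M → ResolvesIn R n N
  | 0, _, _, _, _, _, _, e, ⟨k, ⟨e'⟩⟩ => ⟨k, ⟨e.symm.trans e'⟩⟩
  | _ + 1, _, _, _, _, _, _, e, ⟨k, f, hf, h⟩ =>
    ⟨k, e.toLinearMap ∘ₗ f, e.surjective.comp hf, h.of_equiv (LinearEquiv.ofEq _ _
      (LinearEquiv.ker_comp e f).symm)⟩

/-- A surjection from any finite free module will do. -/
theorem ResolvesIn.of_surjective {n k : ℕ} {M F : Type u} [AddCommGroup M] [Module R M]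
    [AddCommGroup F] [Module R F] (e : F ≃ₗ[R] (Fin k → R)) (f : F →ₗ[R] M)
    (hf : Function.Surjective f) (h : ResolvesIn R n (LinearMap.ker f)) :
    ResolvesIn R (n + 1) M :=
  ⟨k, f ∘ₗ e.symm.toLinearMap, hf.comp e.symm.surjective, h.of_equiv
    ((e.submoduleMap (LinearMap.ker f)).trans (LinearEquiv.ofEq _ _ (by
      rw [LinearMap.ker_comp]
      exact Submodule.map_equiv_eq_comap_symm e _)))⟩

theorem ResolvesIn.succ : ∀ {n : ℕ} {M : Type u} [AddCommGroup M] [Module R M],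
    ResolvesIn R n M → ResolvesIn R (n + 1) M
  | 0, M, _, _, ⟨k, ⟨e⟩⟩ => ⟨k, e.symm.toLinearMap, e.symm.surjective, 0, ⟨by
      rw [LinearEquiv.ker]
      exact LinearEquiv.ofSubsingleton _ _⟩⟩
  | n + 1, _, _, _, ⟨k, f, hf, h⟩ => ⟨k, f, hf, h.succ⟩

theorem ResolvesIn.mono {n m : ℕ} (hnm : n ≤ m) {M : Type u} [AddCommGroup M] [Module R M]
    (h : ResolvesIn R n M) : ResolvesIn R m M := by
  induction hnm with
  | refl => exact h
  | step _ ih => exact ih.succ

/-- **Horseshoe**: extensions. -/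
theorem ResolvesIn.extension : ∀ {n : ℕ} {M₁ M₂ M₃ : Type u} [AddCommGroup M₁] [Module R M₁]
    [AddCommGroup M₂] [Module R M₂] [AddCommGroup M₃] [Module R M₃] (i : M₁ →ₗ[R] M₂)
    (g : M₂ →ₗ[R] M₃), Function.Injective i → Function.Surjective g → Function.Exact i g →
    ResolvesIn R n M₁ → ResolvesIn R n M₃ → ResolvesIn R n M₂
  | 0, M₁, M₂, M₃, _, _, _, _, _, _, i, g, hi, hg, he, ⟨p, ⟨a⟩⟩, ⟨q, ⟨b⟩⟩ => by
    have : Module.Projective R M₃ := Module.Projective.of_equiv b.symm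
    obtain ⟨l, hl⟩ := Module.projective_lifting_property g LinearMap.id hg
    obtain ⟨E, -, -⟩ := he.splitSurjectiveEquiv hi ⟨l, hl⟩
    obtain ⟨s⟩ := finSum_equiv (R := R) p q
    exact ⟨p + q, ⟨(E.trans (a.prodCongr b)).trans s⟩⟩
  | n + 1, M₁, M₂, M₃, _, _, _, _, _, _, i, g, hi, hg, he, ⟨p, a, ha, h₁⟩, ⟨q, b, hb, h₃⟩ => by
    obtain ⟨l, hl⟩ := Module.projective_lifting_property g b hg
    obtain ⟨s⟩ := finSum_equiv (R := R) p q
    have hgl : ∀ y, g (l y) = b y := fun y => LinearMap.congr_fun hl y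
    set h := (i ∘ₗ a).coprod l
    have hh : Function.Surjective h := fun m => by
      obtain ⟨y, hy⟩ := hb (g m)
      obtain ⟨m₁, hm₁⟩ := (he (m - l y)).1 (by rw [map_sub, hgl, hy, sub_self])
      obtain ⟨x, rfl⟩ := ha m₁
      exact ⟨(x, y), by simp [h, hm₁]⟩
    refine ResolvesIn.of_surjective s h hh ?_
    refine ResolvesIn.extension
      (LinearMap.restrict (LinearMap.inl R (Fin p → R) (Fin q → R)) (p := LinearMap.ker a)
        (q := LinearMap.ker h) fun x hx => by simp_all [h])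
      (LinearMap.restrict (LinearMap.snd R (Fin p → R) (Fin q → R)) (p := LinearMap.ker h)
        (q := LinearMap.ker b) fun x hx => ?_) ?_ ?_ ?_ h₁ h₃
    · have := congrArg g (LinearMap.mem_ker.1 hx)
      simpa [h, he.apply_apply_eq_zero, hgl] using this
    · intro x y hxy
      exact Subtype.ext (Prod.ext_iff.1 (congrArg Subtype.val hxy)).1
    · rintro ⟨y, hy⟩
      obtain ⟨m₁, hm₁⟩ := (he (-l y)).1 (by rw [map_neg, hgl, LinearMap.mem_ker.1 hy, neg_zero])
      obtain ⟨x, rfl⟩ := ha m₁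
      exact ⟨⟨(x, y), by simp [h, hm₁]⟩, rfl⟩
    · rintro ⟨⟨x, y⟩, hxy⟩
      refine ⟨fun h0 => ?_, ?_⟩
      · obtain rfl : y = 0 := congrArg Subtype.val h0
        exact ⟨⟨x, hi (by simpa [h] using hxy)⟩, rfl⟩
      · rintro ⟨z, hz⟩
        exact Subtype.ext (Prod.ext_iff.1 (congrArg Subtype.val hz)).2.symm

/-- Two of three: the quotient. -/
theorem HasFiniteFreeResolution.quotient {M₁ M₂ M₃ : Type u} [AddCommGroup M₁] [Module R M₁]
    [AddCommGroup M₂] [Module R M₂] [AddCommGroup M₃] [Module R M₃] (i : M₁ →ₗ[R] M₂)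
    (g : M₂ →ₗ[R] M₃) (hi : Function.Injective i) (hg : Function.Surjective g)
    (he : Function.Exact i g) (h₁ : HasFiniteFreeResolution R M₁)
    (h₂ : HasFiniteFreeResolution R M₂) : HasFiniteFreeResolution R M₃ := by
  obtain ⟨n, h₁⟩ := h₁
  obtain ⟨n', h₂⟩ := h₂
  obtain ⟨k, π, hπ, hK⟩ := h₂.mono (show n' ≤ (n + n') + 1 by omega)
  refine ⟨n + n' + 1, k, g ∘ₗ π, hg.comp hπ, ?_⟩
  set I := LinearEquiv.ofInjective i hi
  refine ResolvesIn.extension (Submodule.inclusion (LinearMap.ker_le_ker_comp π g))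
    (I.symm.toLinearMap ∘ₗ LinearMap.restrict π (p := LinearMap.ker (g ∘ₗ π))
      (q := LinearMap.range i) fun x hx => LinearMap.mem_range.2 ((he (π x)).1 hx))
    (Submodule.inclusion_injective _) ?_ ?_ hK (h₁.mono (Nat.le_add_right n n'))
  · intro m
    obtain ⟨x, hx⟩ := hπ (i m)
    refine ⟨⟨x, by simp [hx, he.apply_apply_eq_zero]⟩, I.injective ?_⟩
    rw [LinearMap.comp_apply, LinearEquiv.coe_coe, LinearEquiv.apply_symm_apply]
    exact Subtype.ext hx
  · rintro ⟨x, hx⟩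
    rw [LinearMap.comp_apply, LinearEquiv.coe_coe, LinearEquiv.map_eq_zero_iff]
    refine ⟨fun h0 => ⟨⟨x, congrArg Subtype.val h0⟩, rfl⟩, ?_⟩
    rintro ⟨⟨z, hz⟩, e⟩
    obtain rfl : z = x := congrArg Subtype.val e
    exact Subtype.ext (LinearMap.mem_ker.1 hz)

theorem HasFiniteFreeResolution.extension {M₁ M₂ M₃ : Type u} [AddCommGroup M₁] [Module R M₁]
    [AddCommGroup M₂] [Module R M₂] [AddCommGroup M₃] [Module R M₃] (i : M₁ →ₗ[R] M₂)
    (g : M₂ →ₗ[R] M₃) (hi : Function.Injective i) (hg : Function.Surjective g)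
    (he : Function.Exact i g) (h₁ : HasFiniteFreeResolution R M₁)
    (h₃ : HasFiniteFreeResolution R M₃) : HasFiniteFreeResolution R M₂ := by
  obtain ⟨n, h₁⟩ := h₁
  obtain ⟨n', h₃⟩ := h₃
  exact ⟨n + n', ResolvesIn.extension i g hi hg he (h₁.mono (Nat.le_add_right n n'))
    (h₃.mono (Nat.le_add_left n' n))⟩

/-- A projective module with a finite free resolution is stably free. -/
theorem exists_prod_equiv : ∀ {n : ℕ} {P : Type u} [AddCommGroup P] [Module R P]
    [Module.Projective R P], ResolvesIn R n P →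
    ∃ m k, Nonempty ((P × (Fin m → R)) ≃ₗ[R] (Fin k → R))
  | 0, P, _, _, _, ⟨k, ⟨e⟩⟩ => by
    obtain ⟨s⟩ := finSum_equiv (R := R) k 0
    exact ⟨0, k + 0, ⟨(e.prodCongr (LinearEquiv.refl R _)).trans s⟩⟩
  | n + 1, P, _, _, _, ⟨k, f, hf, h⟩ => by
    obtain ⟨l, hl⟩ := Module.projective_lifting_property f LinearMap.id hf
    obtain ⟨E, -, -⟩ := (LinearMap.exact_subtype_ker_map f).splitSurjectiveEquiv
      (Submodule.injective_subtype _) ⟨l, hl⟩
    have hfl : ∀ y, f (l y) = y := fun y => LinearMap.congr_fun hl y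
    have : Module.Projective R (LinearMap.ker f) := Module.Projective.of_split
      (LinearMap.ker f).subtype (LinearMap.codRestrict (LinearMap.ker f)
        (LinearMap.id - l ∘ₗ f) fun x => by simp [hfl]) (by
          ext1 x
          exact Subtype.ext (by simp [LinearMap.mem_ker.1 x.2]))
    obtain ⟨m, l', ⟨e⟩⟩ := exists_prod_equiv h
    obtain ⟨s⟩ := finSum_equiv (R := R) k m
    -- `P ⊕ R^l' = P ⊕ ker f ⊕ R^m = R^(k + m)`
    exact ⟨l', k + m, ⟨(((LinearEquiv.refl R P).prodCongr e.symm).trans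
      ((LinearEquiv.prodAssoc R P _ _).symm.trans
        (((LinearEquiv.prodComm R P _).trans E.symm).prodCongr (LinearEquiv.refl R _)))).trans s⟩⟩

end Fermat.Agent.QuillenSuslin
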