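import Mathlib

/-!
# Rows up to invertible matrices

Two rows are equivalent when an invertible matrix carries one to the other; elementary changes
keep the class.
-/

set_option autoImplicit false

noncomputable section

open Matrix

namespace Fermat.Agent.QuillenSuslin

/-- An invertible matrix carries `v` to `w`. -/
def RowEquiv {R : Type*} [CommRing R] {n : ℕ} (v w : Fin n → R) : Prop :=
  ∃ M : Matrix (Fin n) (Fin n) R, IsUnit M.det ∧ M *ᵥ v = w

/-- The entries generate the unit ideal. -/
def IsUnimodularRow {R : Type*} [CommRing R] {n : ℕ} (v : Fin n → R) : Prop :=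
  ∃ u : Fin n → R, u ⬝ᵥ v = 1

variable {R : Type*} [CommRing R] {n : ℕ}

namespace RowEquiv

@[refl]
theorem refl (v : Fin n → R) : RowEquiv v v := ⟨1, by simp, one_mulVec v⟩

theorem symm {v w : Fin n → R} (h : RowEquiv v w) : RowEquiv w v := by
  obtain ⟨M, hM, rfl⟩ := h
  exact ⟨M⁻¹, M.isUnit_nonsing_inv_det hM, by
    rw [mulVec_mulVec, M.nonsing_inv_mul hM, one_mulVec]⟩

theorem trans {u v w : Fin n → R} (h : RowEquiv u v) (h' : RowEquiv v w) : RowEquiv u w := by
  obtain ⟨M, hM, rfl⟩ := h
  obtain ⟨N, hN, rfl⟩ := h'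
  exact ⟨N * M, by rw [det_mul]; exact hN.mul hM, (mulVec_mulVec u N M).symm⟩

theorem map {S : Type*} [CommRing S] (f : R →+* S) {v w : Fin n → R} (h : RowEquiv v w) :
    RowEquiv (f ∘ v) (f ∘ w) := by
  obtain ⟨M, hM, rfl⟩ := h
  refine ⟨M.map f, ?_, funext fun i => (f.map_mulVec M v i).symm⟩
  rw [← RingHom.mapMatrix_apply, ← RingHom.map_det]
  exact hM.map f

theorem isUnimodularRow {v w : Fin n → R} (h : RowEquiv v w) (hv : IsUnimodularRow v) :
    IsUnimodularRow w := by
  obtain ⟨M, hM, rfl⟩ := h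
  obtain ⟨u, hu⟩ := hv
  exact ⟨u ᵥ* M⁻¹, by rw [dotProduct_mulVec, vecMul_vecMul, M.nonsing_inv_mul hM, vecMul_one, hu]⟩

/-- Reordering. -/
theorem perm (v : Fin n → R) (σ : Equiv.Perm (Fin n)) : RowEquiv v (v ∘ σ) :=
  ⟨σ.permMatrix R,
    by rw [det_permutation]; exact (Equiv.Perm.sign σ).isUnit.map (Int.castRingHom R),
    permMatrix_mulVec σ⟩

/-- Multiples of one entry added to the others. -/
theorem add_multiples (v : Fin n → R) (i : Fin n) (c : Fin n → R) (hc : c i = 0) :
    RowEquiv v (v + v i • c) := by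
  refine ⟨1 + vecMulVec c (Pi.single i 1), isUnit_det_of_right_inverse
    (B := 1 + vecMulVec (-c) (Pi.single i 1)) ?_, ?_⟩
  · have e : vecMulVec c (Pi.single i 1) * vecMulVec c (Pi.single i (1 : R)) = 0 := by
      rw [vecMulVec_mul_vecMulVec, single_dotProduct, hc, mul_zero, zero_smul, vecMulVec_zero]
    rw [neg_vecMulVec, Matrix.add_mul, Matrix.one_mul, Matrix.mul_add, Matrix.mul_one,
      Matrix.mul_neg, e]
    abel
  · rw [add_mulVec, one_mulVec, vecMulVec_mulVec, single_dotProduct, one_mul]
    ext j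
    simp

/-- The unit rows are equivalent. -/
theorem single_single (i j : Fin n) : RowEquiv (Pi.single i (1 : R)) (Pi.single j 1) := by
  convert perm (Pi.single i (1 : R)) (Equiv.swap i j) using 1
  funext k
  simp only [Function.comp_apply, Pi.single_apply, Equiv.swap_apply_eq_iff, Equiv.swap_apply_left]

/-- Scaling one entry by a unit. -/
theorem scale (v : Fin n → R) (i : Fin n) (u : Rˣ) :
    RowEquiv v (Function.update v i (u * v i)) := by
  refine ⟨diagonal (Function.update 1 i (u : R)), ?_, funext fun k => ?_⟩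
  · rw [det_diagonal, Finset.prod_update_of_mem (Finset.mem_univ i)]
    simp
  · rw [mulVec_diagonal]
    rcases eq_or_ne k i with rfl | h <;> simp [*]

/-- A row with a unit entry. -/
theorem of_isUnit_entry (v : Fin n → R) (i : Fin n) (h : IsUnit (v i)) :
    RowEquiv v (Pi.single i 1) := by
  obtain ⟨u, hu⟩ := h
  refine (scale v i u⁻¹).trans ?_
  set v' := Function.update v i (((u⁻¹ : Rˣ) : R) * v i) with hv'
  have h1 : v' i = 1 := by simp [hv', ← hu]
  convert add_multiples v' i (fun k => if k = i then 0 else -v' k) (if_pos rfl) using 1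
  clear_value v'
  funext k
  rcases eq_or_ne k i with rfl | hk
  · simp [h1]
  · simp [h1, hk]

/-- A unimodular row of two entries. -/
theorem of_two (v : Fin 2 → R) (hv : IsUnimodularRow v) : RowEquiv v (Pi.single 0 1) := by
  obtain ⟨u, hu⟩ := hv
  rw [dotProduct, Fin.sum_univ_two] at hu
  refine ⟨!![u 0, u 1; -v 1, v 0], ?_, ?_⟩
  · rw [det_fin_two_of]
    convert isUnit_one (M := R) using 1
    linear_combination hu
  · funext k
    fin_cases k
    · simpa [mulVec, dotProduct, Fin.sum_univ_two] using hu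
    · simp [mulVec, dotProduct, Fin.sum_univ_two]; ring

end RowEquiv

theorem IsUnimodularRow.map {S : Type*} [CommRing S] (f : R →+* S) {v : Fin n → R}
    (h : IsUnimodularRow v) : IsUnimodularRow (f ∘ v) := by
  obtain ⟨u, hu⟩ := h
  exact ⟨f ∘ u, by rw [← f.map_dotProduct, hu, map_one]⟩

end Fermat.Agent.QuillenSuslin
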